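import Fermat.Agent.Final.Frey
import Fermat.Agent.RT.Lift.Assembly
import Fermat.Agent.S02
import Fermat.Agent.S05
import Fermat.Agent.S07
import Fermat.Agent.S08
import Fermat.Agent.S09
import Fermat.Agent.S43
import Fermat.Agent.S44
import Fermat.Agent.S58

/-!
# The root statement from the two lowering steps of lifting

Everything except `LowerP` and `LowerQ` is taken from the library.
-/

set_option autoImplicit false

open WeierstrassCurve WeierstrassCurve.Affine WeierstrassCurve.Affine.Point

namespace FLTA.Final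

theorem conductorMatching : RT.ConductorMatching :=
  fun W hss N p _ hp2 hirr hp2N hN hbad hN3 =>
    Fermat.Agent.S58.result W hss N p hp2 hirr hp2N hN hbad hN3

theorem liftSquarefree (hB : RT.LowerP) (hC : RT.LowerQ) : LiftSquarefree :=
  liftSquarefree_of hB hC RT.liftFromMinimal conductorMatching

/-- The statement of S04. -/
theorem chain04 (hB : RT.LowerP) (hC : RT.LowerQ) (P : FreyPackage) : P.freyCurve.IsModular :=
  s04_frey (liftSquarefree hB hC) P

/-- The statement of S06. -/
theorem chain06 (hB : RT.LowerP) (hC : RT.LowerQ) (P : FreyPackage) :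
    ∃ N : ℕ, P.IsConductorLevel N ∧ P.ModularRepOfLevel N :=
  s06_frey (liftSquarefree hB hC) P

/-- The statement of S45. -/
theorem chain45 (hB : RT.LowerP) (hC : RT.LowerQ) (P : FreyPackage)
    (hmod : P.freyCurve.IsModular)
    (hirr : GaloisRepIsIrreducible (K := AlgebraicClosure ℚ) ℚ P.freyCurve P.p) :
    ∃ f : CuspForm (CongruenceSubgroup.Gamma0 2) 2, f ≠ 0 :=
  s45_frey (liftSquarefree hB hC) Fermat.Agent.S05.result Fermat.Agent.S08.result
    (fun P' {N q} => Fermat.Agent.S43.result P' (N := N) (q := q))
    (fun P' {N} => Fermat.Agent.S44.result P' (N := N)) P hmod hirr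

/-- The statement of S03. -/
theorem chain03 (hB : RT.LowerP) (hC : RT.LowerQ) (P : FreyPackage) : False :=
  s03_frey (liftSquarefree hB hC) Fermat.Agent.S05.result Fermat.Agent.S07.result
    Fermat.Agent.S08.result Fermat.Agent.S09.result
    (fun P' {N q} => Fermat.Agent.S43.result P' (N := N) (q := q))
    (fun P' {N} => Fermat.Agent.S44.result P' (N := N)) P

/-- The statement of S01. -/
theorem chain01 (hB : RT.LowerP) (hC : RT.LowerQ) (n : ℕ) (hn : 3 ≤ n) (a b c : ℕ)
    (ha : 0 < a) (hb : 0 < b) (hc : 0 < c) : a ^ n + b ^ n ≠ c ^ n :=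
  Wiring.s01_of Fermat.Agent.S02.result (chain03 hB hC) n hn a b c ha hb hc

end FLTA.Final
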