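import Fermat.Agent.Final.S59
import Fermat.Agent.LT2.Main
import Fermat.Agent.Wiring.Root

/-!
# The rows of the Frey endgame from S43, S44 and lifting at squarefree levels

`h59 : LiftSquarefree` together with the companion-curve argument gives the rows S04 and S06; with
S05, S08, S43, S44 it gives S45, and with S02, S07, S09 in addition it gives S03 and the root
statement S01.
-/

set_option autoImplicit false

open WeierstrassCurve WeierstrassCurve.Affine WeierstrassCurve.Affine.Point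
open CuspForm ModularFormClass

namespace FLTA.Final

/-- The statement of S43. -/
def LowerOddPrime : Prop :=
  ∀ (P : FreyPackage) {N q : ℕ}, P.IsConductorLevel N → q.Prime → q ≠ 2 → q ≠ P.p →
    q ∣ N → GaloisRepIsIrreducible (K := AlgebraicClosure ℚ) ℚ P.freyCurve P.p →
    P.ModularRepOfLevel N → P.GaloisRepUnramifiedAt q →
    ∃ M : ℕ, M ∣ N ∧ ¬ q ∣ M ∧ P.ModularRepOfLevel M

/-- The statement of S44. -/
def LowerAtExponent : Prop :=
  ∀ (P : FreyPackage) {N : ℕ}, P.IsConductorLevel N → P.p ∣ N →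
    GaloisRepIsIrreducible (K := AlgebraicClosure ℚ) ℚ P.freyCurve P.p →
    P.ModularRepOfLevel N → ∃ M : ℕ, M ∣ N ∧ ¬ P.p ∣ M ∧ P.ModularRepOfLevel M

theorem frey_exact (h59 : LiftSquarefree) (P : FreyPackage) :
    Mlc1IsModularModelOfExactConductorLevel P.freyCurveInt :=
  LT2.frey_exactConductor
    (fun p hp W hΔ hW hirr M _ hres hsf => h59 p hp W hΔ hW hirr M hsf hres) P

/-- The statement of S04. -/
theorem s04_frey (h59 : LiftSquarefree) (P : FreyPackage) : P.freyCurve.IsModular := by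
  obtain ⟨N, hN, -, -, hmod⟩ := frey_exact h59 P
  rw [← Wiring.freyCurveInt_map_rat]
  exact ⟨P.freyCurveInt, ⟨1, one_smul _ _⟩, N, hN, hmod⟩

/-- The statement of S06. -/
theorem s06_frey (h59 : LiftSquarefree) (P : FreyPackage) :
    ∃ N : ℕ, P.IsConductorLevel N ∧ P.ModularRepOfLevel N := by
  obtain ⟨N, hN, hsq, hsupp, hmod⟩ := frey_exact h59 P
  refine ⟨N, ⟨hN, hsq, fun q hq hqN =>
    Wiring.dvd_abc_of_dvd_freyCurveInt_Δ P hq ((hsupp q hq).mp hqN)⟩, ?_⟩
  obtain ⟨f, 𝔪, hf, hmax, hmem, hcoef⟩ :=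
    Wiring.isResiduallyModularOfLevel_of_isModularModelOfLevel P.pp hmod
  exact ⟨f, P.freyCurveInt, 𝔪, hf, Wiring.freyCurveInt_isIntegralModelOf P, hmax, hmem, hcoef⟩

/-- The statement of S45. -/
theorem s45_frey (h59 : LiftSquarefree)
    (h05 : ∀ (P : FreyPackage) {q : ℕ}, q.Prime → q ≠ 2 → q ≠ P.p → P.GaloisRepUnramifiedAt q)
    (h08 : ∀ f : CuspForm (CongruenceSubgroup.Gamma0 1) 2, f = 0)
    (h43 : LowerOddPrime) (h44 : LowerAtExponent)
    (P : FreyPackage) (hmod : P.freyCurve.IsModular)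
    (hirr : GaloisRepIsIrreducible (K := AlgebraicClosure ℚ) ℚ P.freyCurve P.p) :
    ∃ f : CuspForm (CongruenceSubgroup.Gamma0 2) 2, f ≠ 0 :=
  Wiring.s45_of h05 (s06_frey h59) h08 h43 h44 P hmod hirr

/-- The statement of S03. -/
theorem s03_frey (h59 : LiftSquarefree)
    (h05 : ∀ (P : FreyPackage) {q : ℕ}, q.Prime → q ≠ 2 → q ≠ P.p → P.GaloisRepUnramifiedAt q)
    (h07 : ∀ f : CuspForm (CongruenceSubgroup.Gamma0 2) 2, f = 0)
    (h08 : ∀ f : CuspForm (CongruenceSubgroup.Gamma0 1) 2, f = 0)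
    (h09 : ∀ P : FreyPackage,
      GaloisRepIsIrreducible (K := AlgebraicClosure ℚ) ℚ P.freyCurve P.p)
    (h43 : LowerOddPrime) (h44 : LowerAtExponent) (P : FreyPackage) : False :=
  LT2.frey_false h05 h07 h08 h09 h43 h44
    (fun p hp W hΔ hW hirr M _ hres hsf => h59 p hp W hΔ hW hirr M hsf hres) P

/-- The root statement S01. -/
theorem s01_frey (h59 : LiftSquarefree)
    (h02 : ∀ (a b c : ℤ), a ≠ 0 → b ≠ 0 → c ≠ 0 → ∀ (p : ℕ), p.Prime → 5 ≤ p →
      a ^ p + b ^ p = c ^ p → Nonempty FreyPackage)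
    (h05 : ∀ (P : FreyPackage) {q : ℕ}, q.Prime → q ≠ 2 → q ≠ P.p → P.GaloisRepUnramifiedAt q)
    (h07 : ∀ f : CuspForm (CongruenceSubgroup.Gamma0 2) 2, f = 0)
    (h08 : ∀ f : CuspForm (CongruenceSubgroup.Gamma0 1) 2, f = 0)
    (h09 : ∀ P : FreyPackage,
      GaloisRepIsIrreducible (K := AlgebraicClosure ℚ) ℚ P.freyCurve P.p)
    (h43 : LowerOddPrime) (h44 : LowerAtExponent)
    (n : ℕ) (hn : 3 ≤ n) (a b c : ℕ) (ha : 0 < a) (hb : 0 < b) (hc : 0 < c) :
    a ^ n + b ^ n ≠ c ^ n :=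
  Wiring.s01_of h02 (s03_frey h59 h05 h07 h08 h09 h43 h44) n hn a b c ha hb hc

end FLTA.Final
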