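import Fermat.Agent.RT.S59Assembly

/-!
# S59 from the interface statements of the lifting argument

`LiftSquarefree` is the squarefree-level case of S59, which is all that the route to the root
statement uses; `s59_of` is the frozen statement.
-/

set_option autoImplicit false

open WeierstrassCurve

namespace FLTA.Final

/-- S59 restricted to squarefree residual levels. -/
def LiftSquarefree : Prop :=
  ∀ (p : ℕ), p = 3 ∨ p = 5 → ∀ W : WeierstrassCurve ℤ, W.Δ ≠ 0 → W.IsSemistableModel →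
    W.ModRepIsIrreducible p → ∀ M₀ : ℕ, Squarefree M₀ → W.IsResiduallyModularOfLevel p M₀ →
    Mlc1IsModularModelOfExactConductorLevel W

theorem liftSquarefree_of (hB : RT.LowerP) (hC : RT.LowerQ) (hL : RT.LiftFromMinimal)
    (h58 : RT.ConductorMatching) : LiftSquarefree :=
  fun _ hp _ hΔ hW hirr _ hsf hres =>
    RT.modularityLifting_threeFive_of_squarefree hB hC hL h58 ⟨hp, hΔ, hW, hirr⟩ hsf hres

/-- The statement of S59. -/
theorem s59_of (hA : RT.SqDescent) (hA₂ : RT.SqDescentTwo) (hB : RT.LowerP) (hC : RT.LowerQ)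
    (hL : RT.LiftFromMinimal) (h58 : RT.ConductorMatching)
    (p : ℕ) (hp : p = 3 ∨ p = 5)
    (W : WeierstrassCurve ℤ) (hΔ : W.Δ ≠ 0) (hW : W.IsSemistableModel)
    (hirr : W.ModRepIsIrreducible p)
    (M₀ : ℕ) [NeZero M₀] (hres₀ : W.IsResiduallyModularOfLevel p M₀)
    (hM₀ : ¬ p ^ 2 ∣ M₀)
    (hM₀3 : ∀ q : ℕ, q.Prime → q ≠ p → ¬ q ^ 3 ∣ M₀) :
    Mlc1IsModularModelOfExactConductorLevel W :=
  RT.modularityLifting_threeFive_of hA hA₂ hB hC hL h58 ⟨hp, hΔ, hW, hirr⟩
    (Nat.pos_of_ne_zero (NeZero.ne M₀)) hres₀ hM₀ hM₀3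

end FLTA.Final
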